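import Fermat.Agent.H22.ES.KLAsmCore

/-!
# P-DS / ES1-KL (row 581) : the concrete model for the key lemma, GENERIC in the level field

`F₀ : IntermediateField ℚ (LaurentSeries ℚ)` is the level field over `ℚ` (`modularFunctionFieldFull N`
for `X₀(N)`, `Fermat.Agent.H29.ES1.F1 M` for `X₁(M)`).  This file is helper22's `KLModel` +
`KLAsmCore` with `modularFunctionFieldFull N` replaced by `F₀`:

* `ModelFieldGen K₁ F₀ = laurentBaseChange K₁ F₀ ⊆ K₁((q))`,
* `ModelTranscendentalGen`, `ModelGoodBasisGen`, `ModelBranchGen`, `ModelQExpGen`,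
  `ModelCuspPlaceGen` : the inputs specific to the level field,
* `klAsm_core_gen` : the abstract key lemma applied to the model (prime exponent `r`, abstract
  discrete valuation ring `A₀` with fraction field the number field `K₁`).

The statements of `Fermat.Agent.H22.KL` are the instances `F₀ = modularFunctionFieldFull N`
(`model*_iff`, all by `Iff.rfl`).
-/

set_option autoImplicit false

noncomputable section

namespace Fermat.Agent.H91.ES1KL

open Polynomial ModularCurve AlgebraicCurve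
open Fermat.Agent.H22.KL

/-- `E₀ = K₁ · F₀ ⊆ K₁((q))`, the level field over `K₁`. -/
abbrev ModelFieldGen (K₁ : Type) [Field K₁] [Algebra ℚ K₁]
    (F₀ : IntermediateField ℚ (LaurentSeries ℚ)) : Type :=
  ↥(laurentBaseChange K₁ F₀)

/-- **TR (generic)**: the coordinate is transcendental over `A₀`. -/
def ModelTranscendentalGen (F₀ : IntermediateField ℚ (LaurentSeries ℚ))
    (x₀ : LaurentSeries ℚ) : Prop :=
  ∀ (K₁ : Type) [Field K₁] [Algebra ℚ K₁]
    (A₀ : Type) [CommRing A₀] [IsDomain A₀] [Algebra A₀ K₁] [IsFractionRing A₀ K₁]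
    [Algebra A₀ (ModelFieldGen K₁ F₀)] [IsScalarTower A₀ K₁ (ModelFieldGen K₁ F₀)]
    (x : ModelFieldGen K₁ F₀), (x : LaurentSeries K₁) = coeffEmb K₁ x₀ → Transcendental A₀ x

/-- **GB (generic)**: the level field over `K₁` has a good basis at every discrete valuation
ring `A₀` of `K₁` over `ℓ`, in the chart `x`. -/
def ModelGoodBasisGen (F₀ : IntermediateField ℚ (LaurentSeries ℚ)) (ℓ : ℕ)
    (x₀ : LaurentSeries ℚ) : Prop :=
  ∀ (K₁ : Type) [Field K₁] [Algebra ℚ K₁] [FiniteDimensional ℚ K₁]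
    (A₀ : Type) [CommRing A₀] [IsDomain A₀] [IsDiscreteValuationRing A₀]
    [Algebra A₀ K₁] [IsFractionRing A₀ K₁]
    [Algebra A₀ (ModelFieldGen K₁ F₀)] [IsScalarTower A₀ K₁ (ModelFieldGen K₁ F₀)],
    ¬ IsUnit ((ℓ : ℕ) : A₀) →
    ∀ (ϖ : A₀), Irreducible ϖ →
    ∀ (x : ModelFieldGen K₁ F₀), (x : LaurentSeries K₁) = coeffEmb K₁ x₀ →
      Fermat.Agent.H22.KL.GoodBasis A₀ (ModelFieldGen K₁ F₀) ϖ x

/-- **BR (generic)**: if `K₁` contains a primitive `M`-th root of unity, the branch hypothesis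
holds at every maximal ideal `(ϖ, g(x))` of `A₀[x]` and at the point `x⁻¹ = 0`. -/
def ModelBranchGen (F₀ : IntermediateField ℚ (LaurentSeries ℚ)) (ℓ : ℕ)
    (x₀ : LaurentSeries ℚ) (M : ℕ) : Prop :=
  ∀ (K₁ : Type) [Field K₁] [Algebra ℚ K₁] [FiniteDimensional ℚ K₁]
    (A₀ : Type) [CommRing A₀] [IsDomain A₀] [IsDiscreteValuationRing A₀]
    [Algebra A₀ K₁] [IsFractionRing A₀ K₁]
    [Algebra A₀ (ModelFieldGen K₁ F₀)] [IsScalarTower A₀ K₁ (ModelFieldGen K₁ F₀)],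
    ¬ IsUnit ((ℓ : ℕ) : A₀) →
    (∃ ζ : K₁, IsPrimitiveRoot ζ M) →
    ∀ (ϖ : A₀), Irreducible ϖ →
    ∀ (x : ModelFieldGen K₁ F₀), (x : LaurentSeries K₁) = coeffEmb K₁ x₀ →
      (∀ g : A₀[X], g.Monic → Irreducible (g.map (IsLocalRing.residue A₀)) →
        BranchHypAt A₀ (ModelFieldGen K₁ F₀) ϖ x g) ∧
      BranchHypAt A₀ (ModelFieldGen K₁ F₀) ϖ x⁻¹ (X : A₀[X])

/-- **QEXP (generic)** (`q`-expansion principle, Gauss form): a quotient `a / b` of two elements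
of `E₀` with `A₀`-integral `q`-expansions, the denominator having a unit coefficient, lies in the
Gauss closure `C(x)`. -/
def ModelQExpGen (F₀ : IntermediateField ℚ (LaurentSeries ℚ)) (ℓ : ℕ)
    (x₀ : LaurentSeries ℚ) : Prop :=
  ∀ (K₁ : Type) [Field K₁] [Algebra ℚ K₁] [FiniteDimensional ℚ K₁]
    (A₀ : Type) [CommRing A₀] [IsDomain A₀] [IsDiscreteValuationRing A₀]
    [Algebra A₀ K₁] [IsFractionRing A₀ K₁]
    [Algebra A₀ (ModelFieldGen K₁ F₀)] [IsScalarTower A₀ K₁ (ModelFieldGen K₁ F₀)],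
    ¬ IsUnit ((ℓ : ℕ) : A₀) →
    ∀ (ϖ : A₀), Irreducible ϖ →
    ∀ (x : ModelFieldGen K₁ F₀), (x : LaurentSeries K₁) = coeffEmb K₁ x₀ →
    ∀ (a b : ModelFieldGen K₁ F₀),
      (∀ n : ℤ, (a : LaurentSeries K₁).coeff n ∈ (algebraMap A₀ K₁).range) →
      (∀ n : ℤ, (b : LaurentSeries K₁).coeff n ∈ (algebraMap A₀ K₁).range) →
      (∃ (n : ℤ) (c : A₀), IsUnit c ∧ algebraMap A₀ K₁ c = (b : LaurentSeries K₁).coeff n) →
      a / b ∈ gaussClosure A₀ (ModelFieldGen K₁ F₀) ϖ x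

/-- **QEXP (generic), over number fields containing a primitive `M`-th root of unity**: the form
of the `q`-expansion principle used by the key lemma (the number field `K₁` of the descent
contains the roots of unity needed by the branch hypotheses). -/
def ModelQExpRootGen (F₀ : IntermediateField ℚ (LaurentSeries ℚ)) (ℓ : ℕ)
    (x₀ : LaurentSeries ℚ) (M : ℕ) : Prop :=
  ∀ (K₁ : Type) [Field K₁] [Algebra ℚ K₁] [FiniteDimensional ℚ K₁]
    (A₀ : Type) [CommRing A₀] [IsDomain A₀] [IsDiscreteValuationRing A₀]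
    [Algebra A₀ K₁] [IsFractionRing A₀ K₁]
    [Algebra A₀ (ModelFieldGen K₁ F₀)] [IsScalarTower A₀ K₁ (ModelFieldGen K₁ F₀)],
    ¬ IsUnit ((ℓ : ℕ) : A₀) →
    (∃ ζ : K₁, IsPrimitiveRoot ζ M) →
    ∀ (ϖ : A₀), Irreducible ϖ →
    ∀ (x : ModelFieldGen K₁ F₀), (x : LaurentSeries K₁) = coeffEmb K₁ x₀ →
    ∀ (a b : ModelFieldGen K₁ F₀),
      (∀ n : ℤ, (a : LaurentSeries K₁).coeff n ∈ (algebraMap A₀ K₁).range) →
      (∀ n : ℤ, (b : LaurentSeries K₁).coeff n ∈ (algebraMap A₀ K₁).range) →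
      (∃ (n : ℤ) (c : A₀), IsUnit c ∧ algebraMap A₀ K₁ c = (b : LaurentSeries K₁).coeff n) →
      a / b ∈ gaussClosure A₀ (ModelFieldGen K₁ F₀) ϖ x

theorem ModelQExpGen.root {F₀ : IntermediateField ℚ (LaurentSeries ℚ)} {ℓ : ℕ}
    {x₀ : LaurentSeries ℚ} (h : ModelQExpGen F₀ ℓ x₀) (M : ℕ) : ModelQExpRootGen F₀ ℓ x₀ M :=
  fun K₁ _ _ _ A₀ _ _ _ _ _ _ _ hℓ _ ϖ hϖ x hx a b ha hb hbu =>
    h K₁ A₀ hℓ ϖ hϖ x hx a b ha hb hbu

/-- **CUSP (generic)**: the `q`-order is a place of `E₀ / K₁` (the cusp `∞`). -/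
def ModelCuspPlaceGen (F₀ : IntermediateField ℚ (LaurentSeries ℚ)) : Prop :=
  ∀ (K₁ : Type) [Field K₁] [Algebra ℚ K₁],
    ∃ P : Place K₁ (ModelFieldGen K₁ F₀),
      ∀ f : ModelFieldGen K₁ F₀, f ≠ 0 → P.ord f = (f : LaurentSeries K₁).order

/-! ### the `Γ₀(N)` statements are instances -/

theorem modelTranscendental_iff (N : ℕ) (x₀ : LaurentSeries ℚ) :
    ModelTranscendentalStatement N x₀ ↔
      ModelTranscendentalGen (modularFunctionFieldFull N) x₀ := Iff.rfl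

theorem modelGoodBasis_iff (N ℓ : ℕ) (x₀ : LaurentSeries ℚ) :
    ModelGoodBasisStatement N ℓ x₀ ↔
      ModelGoodBasisGen (modularFunctionFieldFull N) ℓ x₀ := Iff.rfl

theorem modelBranch_iff (N ℓ : ℕ) (x₀ : LaurentSeries ℚ) (M : ℕ) :
    ModelBranchStatement N ℓ x₀ M ↔
      ModelBranchGen (modularFunctionFieldFull N) ℓ x₀ M := Iff.rfl

theorem modelQExp_iff (N ℓ : ℕ) (x₀ : LaurentSeries ℚ) :
    ModelQExpStatement N ℓ x₀ ↔ ModelQExpGen (modularFunctionFieldFull N) ℓ x₀ := Iff.rfl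

theorem modelCuspPlace_iff (N : ℕ) :
    ModelCuspPlaceStatement N ↔ ModelCuspPlaceGen (modularFunctionFieldFull N) := Iff.rfl

section Core

variable (F₀ : IntermediateField ℚ (LaurentSeries ℚ)) (ℓ : ℕ) (x₀ : LaurentSeries ℚ) (M : ℕ)

/-- **KL-ASM, core, generic in the level field**: the abstract key lemma applied to the level
field over a number field `K₁` with an abstract discrete valuation ring `A₀`. -/
theorem klAsm_core_gen (hx₀ : x₀ ∈ F₀)
    (hAbs : AbstractKeyLemmaStatement) (hTr : ModelTranscendentalGen F₀ x₀)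
    (hGB : ModelGoodBasisGen F₀ ℓ x₀) (hBR : ModelBranchGen F₀ ℓ x₀ M)
    (hQ : ModelQExpRootGen F₀ ℓ x₀ M) (hCusp : ModelCuspPlaceGen F₀)
    (hRoot : ModelRootStatement) (hConst : ModelConstStatement)
    (K₁ : Type) [Field K₁] [Algebra ℚ K₁] [FiniteDimensional ℚ K₁]
    (A₀ : Type) [CommRing A₀] [IsDomain A₀] [IsDiscreteValuationRing A₀]
    [Algebra A₀ K₁] [IsFractionRing A₀ K₁]
    [Algebra A₀ (ModelFieldGen K₁ F₀)] [IsScalarTower A₀ K₁ (ModelFieldGen K₁ F₀)]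
    (hℓ : ¬ IsUnit ((ℓ : ℕ) : A₀))
    (hζM : ∃ ζ : K₁, IsPrimitiveRoot ζ M)
    (r : ℕ) (hr : r.Prime) (hrA : IsUnit ((r : ℕ) : A₀)) (hζr : ∃ ζ : K₁, IsPrimitiveRoot ζ r)
    (a b : ModelFieldGen K₁ F₀)
    (ha : ∀ n : ℤ, (a : LaurentSeries K₁).coeff n ∈ (algebraMap A₀ K₁).range)
    (hb : ∀ n : ℤ, (b : LaurentSeries K₁).coeff n ∈ (algebraMap A₀ K₁).range)
    (hbu : ∃ (n : ℤ) (c : A₀), IsUnit c ∧ algebraMap A₀ K₁ c = (b : LaurentSeries K₁).coeff n)
    (hab : ∀ n : ℤ, ∃ c : A₀, ¬ IsUnit c ∧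
      algebraMap A₀ K₁ c = ((a : LaurentSeries K₁) - (b : LaurentSeries K₁)).coeff n)
    (hord : ∀ P : Place K₁ (ModelFieldGen K₁ F₀), (r : ℤ) ∣ P.ord a - P.ord b)
    (hγ : ∃ γ : K₁, γ ^ r * (b : LaurentSeries K₁).leadingCoeff
      = (a : LaurentSeries K₁).leadingCoeff) :
    ∃ w : ModelFieldGen K₁ F₀, w ^ r * b = a := by
  classical
  -- the coordinate
  let x : ModelFieldGen K₁ F₀ := ⟨coeffEmb K₁ x₀, coeffEmb_mem_laurentBaseChange K₁ hx₀⟩
  have hx : (x : LaurentSeries K₁) = coeffEmb K₁ x₀ := rfl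
  obtain ⟨ϖ, hϖ⟩ := IsDiscreteValuationRing.exists_irreducible A₀
  have hinjK : Function.Injective (algebraMap A₀ K₁) := IsFractionRing.injective A₀ K₁
  -- `b ≠ 0`, `a ≠ 0`
  have hb0 : b ≠ 0 := by
    obtain ⟨n, c, hc, hcn⟩ := hbu
    intro h
    rw [h] at hcn
    have : algebraMap A₀ K₁ c = 0 := by simpa using hcn
    have hc0 : c = 0 := hinjK (by rw [this, map_zero])
    exact not_isUnit_zero (hc0 ▸ hc)
  have ha0 : a ≠ 0 := by
    obtain ⟨n, c, hc, hcn⟩ := hbu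
    obtain ⟨d, hd, hdn⟩ := hab n
    intro h
    rw [h] at hdn
    have h1 : algebraMap A₀ K₁ d = - algebraMap A₀ K₁ c := by
      rw [hdn, hcn]
      simp
    have h2 : d = -c := hinjK (by rw [h1, map_neg])
    exact hd (h2 ▸ hc.neg)
  have hbL : (b : LaurentSeries K₁) ≠ 0 := fun h => hb0 (Subtype.ext h)
  have haL : (a : LaurentSeries K₁) ≠ 0 := fun h => ha0 (Subtype.ext h)
  -- the instances on `Ω = K₁((q))` (canonical algebra structure over `A₀`)
  have hmapΩ : ∀ c : A₀, algebraMap A₀ (LaurentSeries K₁) c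
      = algebraMap K₁ (LaurentSeries K₁) (algebraMap A₀ K₁ c) := by
    intro c
    simp [HahnSeries.algebraMap_apply', PowerSeries.algebraMap_apply]
  haveI towK := IsScalarTower.of_algebraMap_eq (R := A₀) (S := K₁) (A := LaurentSeries K₁) hmapΩ
  haveI towE := IsScalarTower.of_algebraMap_eq (R := A₀) (S := ModelFieldGen K₁ F₀)
    (A := LaurentSeries K₁) (fun c => by
      rw [hmapΩ, IsScalarTower.algebraMap_apply A₀ K₁ (ModelFieldGen K₁ F₀)]
      rfl)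
  haveI : CharZero K₁ := charZero_of_injective_algebraMap (algebraMap ℚ K₁).injective
  haveI : CharZero (ModelFieldGen K₁ F₀) :=
    charZero_of_injective_algebraMap (algebraMap K₁ (ModelFieldGen K₁ F₀)).injective
  have hinjE : Function.Injective (algebraMap A₀ (ModelFieldGen K₁ F₀)) := by
    rw [IsScalarTower.algebraMap_eq A₀ K₁ (ModelFieldGen K₁ F₀)]
    exact (algebraMap K₁ (ModelFieldGen K₁ F₀)).injective.comp hinjK
  have htr : Transcendental A₀ x := hTr K₁ A₀ x hx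
  have hgb : GoodBasis A₀ (ModelFieldGen K₁ F₀) ϖ x := hGB K₁ A₀ hℓ ϖ hϖ x hx
  obtain ⟨hbr, hbrinf⟩ := hBR K₁ A₀ hℓ hζM ϖ hϖ x hx
  have hconst : ∀ z : LaurentSeries K₁, IsIntegral A₀ z →
      z ∈ (algebraMap A₀ (LaurentSeries K₁)).range := by
    intro z hz
    have hz1 : IsAlgebraic K₁ z := (hz.tower_top (A := K₁)).isAlgebraic
    obtain ⟨c, rfl⟩ := hConst K₁ z hz1
    have hc : IsIntegral A₀ c :=
      (isIntegral_algebraMap_iff (algebraMap K₁ (LaurentSeries K₁)).injective).mp hz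
    obtain ⟨d, rfl⟩ := IsIntegrallyClosed.isIntegral_iff.mp hc
    exact ⟨d, hmapΩ d⟩
  -- the primitive root of unity in `A₀`
  have hζA : ∃ ζ : A₀, IsPrimitiveRoot ζ r := by
    obtain ⟨ζ, hζ⟩ := hζr
    have hint : IsIntegral A₀ ζ :=
      ⟨X ^ r - 1, monic_X_pow_sub_C 1 hr.ne_zero, by simp [hζ.pow_eq_one]⟩
    obtain ⟨z, hz⟩ := IsIntegrallyClosed.isIntegral_iff.mp hint
    exact ⟨z, IsPrimitiveRoot.of_map_of_injective (f := algebraMap A₀ K₁) (hz ▸ hζ) hinjK⟩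
  -- `u = a / b` lies in the Gauss closure
  have huC : a / b ∈ gaussClosure A₀ (ModelFieldGen K₁ F₀) ϖ x :=
    hQ K₁ A₀ hℓ hζM ϖ hϖ x hx a b ha hb hbu
  -- `u - 1 ∈ ϖ C`
  have hϖK : algebraMap A₀ K₁ ϖ ≠ 0 := fun h => hϖ.ne_zero (hinjK (by rw [h, map_zero]))
  have hpi : PiDvdSet A₀ (ModelFieldGen K₁ F₀) ϖ (gaussClosure A₀ (ModelFieldGen K₁ F₀) ϖ x)
      (a / b - 1) := by
    set k : K₁ := algebraMap A₀ K₁ ϖ with hk
    let a' : ModelFieldGen K₁ F₀ := algebraMap K₁ (ModelFieldGen K₁ F₀) k⁻¹ * (a - b)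
    have ha' : ∀ n : ℤ, (a' : LaurentSeries K₁).coeff n ∈ (algebraMap A₀ K₁).range := by
      intro n
      have h1 : (a' : LaurentSeries K₁)
          = HahnSeries.single 0 k⁻¹ * ((a : LaurentSeries K₁) - (b : LaurentSeries K₁)) := by
        show algebraMap K₁ (LaurentSeries K₁) k⁻¹ * _ = _
        rw [algebraMap_laurentSeries_eq_single]
        rfl
      rw [h1, HahnSeries.coeff_single_zero_mul]
      obtain ⟨c, hc, hcn⟩ := hab n
      rw [← hcn]
      have hcm : c ∈ IsLocalRing.maximalIdeal A₀ := by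
        rw [IsLocalRing.mem_maximalIdeal]
        exact hc
      rw [hϖ.maximalIdeal_eq, Ideal.mem_span_singleton] at hcm
      obtain ⟨d, rfl⟩ := hcm
      refine ⟨d, ?_⟩
      rw [map_mul, ← hk]
      field_simp
    refine ⟨a' / b, hQ K₁ A₀ hℓ hζM ϖ hϖ x hx a' b ha' hb hbu, ?_⟩
    have hkE : algebraMap A₀ (ModelFieldGen K₁ F₀) ϖ = algebraMap K₁ (ModelFieldGen K₁ F₀) k :=
      IsScalarTower.algebraMap_apply A₀ K₁ (ModelFieldGen K₁ F₀) ϖ
    have hkE0 : algebraMap K₁ (ModelFieldGen K₁ F₀) k ≠ 0 := by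
      rw [Ne, map_eq_zero]
      exact hϖK
    rw [hkE]
    show a / b - 1 = algebraMap K₁ (ModelFieldGen K₁ F₀) k *
      (algebraMap K₁ (ModelFieldGen K₁ F₀) k⁻¹ * (a - b) / b)
    rw [map_inv₀]
    field_simp
  -- divisibility of the orders at all places
  have hordv : ∀ v : ValuationSubring (ModelFieldGen K₁ F₀), IsPlace A₀ (ModelFieldGen K₁ F₀) v →
      OrdDvd (ModelFieldGen K₁ F₀) v r (a / b) := by
    intro v hv
    obtain ⟨P, rfl⟩ := Fermat.Agent.H22.KL.klAsm_exists_place (K₁ := K₁) v hv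
    refine Fermat.Agent.H22.KL.klAsm_ordDvd_of_place P r (a / b) (div_ne_zero ha0 hb0) ?_
    rw [div_eq_mul_inv, P.ord_mul ha0 (inv_ne_zero hb0), P.ord_inv, ← sub_eq_add_neg]
    exact hord P
  -- the `r`-th root in `Ω`
  have hroot : ∃ w : LaurentSeries K₁, w ^ r = algebraMap (ModelFieldGen K₁ F₀) (LaurentSeries K₁)
      (a / b) := by
    obtain ⟨P, hP⟩ := hCusp K₁
    obtain ⟨γ, hγ⟩ := hγ
    have hdvd : (r : ℤ) ∣ (a : LaurentSeries K₁).order - (b : LaurentSeries K₁).order := by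
      have := hord P
      rwa [hP a ha0, hP b hb0] at this
    obtain ⟨w, hw⟩ := hRoot K₁ r hr.pos
      ((a : LaurentSeries K₁) * (b : LaurentSeries K₁) ^ (r - 1))
      (mul_ne_zero haL (pow_ne_zero _ hbL)) (by
        rw [HahnSeries.order_mul haL (pow_ne_zero _ hbL), HahnSeries.order_pow]
        obtain ⟨t, ht⟩ := hdvd
        refine ⟨t + (b : LaurentSeries K₁).order, ?_⟩
        have hr1 : ((r - 1 : ℕ) : ℤ) = (r : ℤ) - 1 := by
          rw [Nat.cast_sub hr.one_le]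
          simp
        rw [nsmul_eq_mul, hr1]
        linear_combination ht)
      ⟨γ * (b : LaurentSeries K₁).leadingCoeff, by
        rw [HahnSeries.leadingCoeff_mul, Fermat.Agent.H22.KL.klAsm_leadingCoeff_pow, ← hγ, mul_pow,
          ← pow_sub_one_mul hr.ne_zero (b : LaurentSeries K₁).leadingCoeff]
        ring⟩
    refine ⟨w * ((b : LaurentSeries K₁))⁻¹, ?_⟩
    rw [mul_pow, hw]
    show _ = ((a / b : ModelFieldGen K₁ F₀) : LaurentSeries K₁)
    have hcoe : ((a / b : ModelFieldGen K₁ F₀) : LaurentSeries K₁)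
        = (a : LaurentSeries K₁) / (b : LaurentSeries K₁) := rfl
    rw [hcoe, inv_pow, ← pow_sub_one_mul hr.ne_zero (b : LaurentSeries K₁)]
    have hb1 : (b : LaurentSeries K₁) ^ (r - 1) ≠ 0 := pow_ne_zero _ hbL
    field_simp
  -- apply the abstract key lemma
  obtain ⟨w₀, hw₀⟩ := hAbs A₀ (ModelFieldGen K₁ F₀) (LaurentSeries K₁) hinjE ϖ hϖ x htr hgb hbr
    hbrinf hconst r hr hrA hζA (a / b) huC hpi hordv hroot
  refine ⟨w₀, ?_⟩
  rw [hw₀]
  field_simp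

end Core

end Fermat.Agent.H91.ES1KL
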