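import Fermat.Agent.H91.ES1KL.ModelGen
import Fermat.Agent.H58.KL.ModelTr
import Fermat.Agent.H60.KLModelCusp

/-!
# P-DS / ES1-KL (row 581) : the formal model inputs TR and CUSP, GENERIC in the level field

* `modelTranscendentalGen_of_order_ne_zero` : a coordinate of nonzero `q`-order is transcendental
  (port of helper58's `modelTranscendental_of_order_ne_zero`).
* `modelCuspPlaceGen` : the `q`-order is a place of `K₁ · F₀` as soon as `j ∈ F₀`
  (port of helper60's `modelCuspPlace`).
-/

set_option autoImplicit false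
set_option linter.unusedSectionVars false

noncomputable section

namespace Fermat.Agent.H91.ES1KL

open ModularCurve AlgebraicCurve Fermat.Agent.H22.KL

/-- **TR (generic)**. -/
theorem modelTranscendentalGen_of_order_ne_zero (F₀ : IntermediateField ℚ (LaurentSeries ℚ))
    (x₀ : LaurentSeries ℚ) (hx₀ : x₀.order ≠ 0) : ModelTranscendentalGen F₀ x₀ := by
  intro K₁ _ _ A₀ _ _ _ _ _ _ x hx
  have h1 : Transcendental K₁ (x : LaurentSeries K₁) := by
    rw [hx]
    apply Fermat.Agent.H58.kltr_transcendental_of_order_ne_zero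
    rw [Fermat.Agent.H58.kltr_order_coeffEmb]
    exact hx₀
  have h2 : Transcendental K₁ x := by
    intro halg
    have h3 : IsAlgebraic K₁
        (algebraMap (ModelFieldGen K₁ F₀) (LaurentSeries K₁) x) :=
      halg.algebraMap
    exact h1 h3
  exact h2.restrictScalars (IsFractionRing.injective A₀ K₁)

/-- **TR (generic)** for `x₀ = j`. -/
theorem modelTranscendentalGen_jq (F₀ : IntermediateField ℚ (LaurentSeries ℚ)) :
    ModelTranscendentalGen F₀ jq :=
  modelTranscendentalGen_of_order_ne_zero F₀ jq Fermat.Agent.H58.kltr_order_jq_ne_zero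

/-- **CUSP (generic)**: the `q`-order is a place of `K₁ · F₀ / K₁` as soon as `j ∈ F₀`. -/
theorem modelCuspPlaceGen (F₀ : IntermediateField ℚ (LaurentSeries ℚ)) (hjq : jq ∈ F₀) :
    ModelCuspPlaceGen F₀ := by
  intro K₁ _ _
  let ι' : ModelFieldGen K₁ F₀ →+* LaurentSeries K₁ :=
    ((laurentBaseChange K₁ F₀).val : _ →+* LaurentSeries K₁)
  have hconst : ∀ a : K₁, a ≠ 0 → (ι' (algebraMap K₁ (ModelFieldGen K₁ F₀) a)).order = 0 := by
    intro a ha
    have : ι' (algebraMap K₁ (ModelFieldGen K₁ F₀) a) = HahnSeries.single 0 a := by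
      show algebraMap K₁ (LaurentSeries K₁) a = _
      exact algebraMap_laurentSeries_eq_single K₁ a
    rw [this, HahnSeries.order_single ha]
  let x : ModelFieldGen K₁ F₀ := ⟨coeffEmb K₁ jq, coeffEmb_mem_laurentBaseChange K₁ hjq⟩
  have hx : (ι' x).order = -1 := Fermat.Agent.H60.klm_order_coeffEmb_jq K₁
  obtain ⟨P, hP⟩ := Fermat.Agent.H2.klbr_cusp_place ι' hconst x hx
  exact ⟨P, fun f _ => hP f⟩

end Fermat.Agent.H91.ES1KL
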