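import Fermat.Agent.H22.ES.KLTop

/-!
# P-DS / ES1-KL (row 581) : irreducibility of the special fibre (abstract)

`IrredFibre A E ϖ x` : the ring `C / ϖ C` (`C` the Gauss closure) has no nontrivial idempotent.

`irreducibleFibre_of_normalityAt` : in the setting of the abstract key lemma (good basis, branch
hypotheses in both charts, constants `B(x) ∩ B(x⁻¹) = A`), the special fibre is irreducible.
This is the second half of helper22's `noKummer_of` (normality in both charts + Lemma T +
connectedness), stated for the field `E` itself.  It replaces Igusa's theorem for level fields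
where the degree of the reduction is not known in advance (e.g. `X₁(M)`).
-/

set_option autoImplicit false

noncomputable section

namespace Fermat.Agent.H91.ES1KL

open Polynomial
open Fermat.Agent.H22.KL
open Fermat.Agent.H67.KLConn (PiDvd)

/-- The special fibre is irreducible: `C / ϖ C` has no nontrivial idempotent. -/
def IrredFibre (A : Type) [CommRing A] (E : Type) [Field E] [Algebra A E] (ϖ : A) (x : E) :
    Prop :=
  ∀ e ∈ gaussClosure A E ϖ x, PiDvdSet A E ϖ (gaussClosure A E ϖ x) (e * e - e) →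
    PiDvdSet A E ϖ (gaussClosure A E ϖ x) e ∨ PiDvdSet A E ϖ (gaussClosure A E ϖ x) (1 - e)

/-- **IRREDUCIBILITY OF THE SPECIAL FIBRE** (abstract). -/
def IrreducibleFibreStatement : Prop :=
  ∀ (A : Type) [CommRing A] [IsDomain A] [IsDiscreteValuationRing A]
    (E : Type) [Field E] [Algebra A E] [CharZero E],
    Function.Injective (algebraMap A E) →
    ∀ (ϖ : A), Irreducible ϖ → ∀ (x : E), Transcendental A x →
    Fermat.Agent.H22.KL.GoodBasis A E ϖ x →
    (∀ g : A[X], g.Monic → Irreducible (g.map (IsLocalRing.residue A)) →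
      BranchHypAt A E ϖ x g) →
    BranchHypAt A E ϖ x⁻¹ (X : A[X]) →
    (∀ z : E, z ∈ chartClosure A E x → z ∈ chartClosure A E x⁻¹ →
      z ∈ (algebraMap A E).range) →
    IrredFibre A E ϖ x

/-- Irreducibility of the special fibre from normality in both charts, Lemma T, the chart
basics and connectedness. -/
theorem irreducibleFibre_of (hB : ChartBasicsStatement) (hT : LemmaTStatement)
    (hG : GaussClosureStatement) (hN : NormalityStatement) (hI : NormalityInfStatement) :
    IrreducibleFibreStatement := by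
  intro A _ _ _ E _ _ _ hinjE ϖ hϖ X hX hGBE hbrE hbrinfE hconst e heC hee
  have hX0 : X ≠ 0 := by
    intro h0
    apply hX
    rw [h0]
    exact isAlgebraic_zero
  have hXinv : Transcendental A X⁻¹ := by
    intro h
    exact hX (IsAlgebraic.inv_iff.mp h)
  obtain ⟨a, ha, hae⟩ := hN A E hinjE ϖ hϖ X hX hGBE hbrE e heC hee
  obtain ⟨b, hb, hbe⟩ := hI A E hinjE ϖ hϖ X hX hGBE hbrinfE e heC hee ⟨a, ha, hae⟩
  obtain ⟨hBC, hCring', hCinv⟩ := hG A E hinjE ϖ hϖ X hX
  obtain ⟨hBCi, -, -⟩ := hG A E hinjE ϖ hϖ X⁻¹ hXinv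
  rw [hCinv] at hBCi
  have hCring : IsRingLike (gaussClosure A E ϖ X) :=
    ⟨fun y hy z hz => (hCring' y hy z hz).1, fun y hy z hz => (hCring' y hy z hz).2.1,
      fun y hy => (hCring' y hy y hy).2.2⟩
  obtain ⟨n, bas, -, -⟩ := hGBE
  obtain ⟨hgen, hmidf, hmidi, hsat⟩ := hB A E hinjE ϖ hϖ X hX ⟨n, ⟨bas⟩⟩
  -- membership in `C`
  have haC : a ∈ gaussClosure A E ϖ X := hBC a ha
  have hbC : b ∈ gaussClosure A E ϖ X := hBCi b hb
  have h1C : (1 : E) ∈ gaussClosure A E ϖ X := hBC 1 (chartClosure A E X).one_mem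
  -- `a² - a ∈ ϖ C`, `b² - b ∈ ϖ C`
  have key : ∀ c ∈ gaussClosure A E ϖ X, PiDvdSet A E ϖ (gaussClosure A E ϖ X) (e - c) →
      PiDvdSet A E ϖ (gaussClosure A E ϖ X) (c ^ 2 - c) := by
    intro c hc hec
    have e1 : c ^ 2 - c = (e * e - e) - (e - c) * (e + c - 1) := by ring
    rw [e1]
    refine hee.sub hCring (hec.mul_right hCring ?_)
    exact hCring.sub (hCring.add e heC c hc) h1C
  have ha2 : PiDvd ϖ (chartClosure A E X) 1 (a ^ 2 - a) :=
    hT A E hinjE ϖ hϖ X hX _ ((chartClosure A E X).sub_mem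
      ((chartClosure A E X).pow_mem ha 2) ha) (key a haC hae)
  have hb2 : PiDvd ϖ (chartClosure A E X⁻¹) 1 (b ^ 2 - b) := by
    refine hT A E hinjE ϖ hϖ X⁻¹ hXinv _ ((chartClosure A E X⁻¹).sub_mem
      ((chartClosure A E X⁻¹).pow_mem hb 2) hb) ?_
    rw [hCinv]
    exact key b hbC hbe
  -- the overlap
  have hXf : X ∈ chartClosure A E X := mem_chartClosure_of_mem_chartRing
    (Algebra.subset_adjoin (Set.mem_singleton X))
  have hXi : X⁻¹ ∈ chartClosure A E X⁻¹ := mem_chartClosure_of_mem_chartRing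
    (Algebra.subset_adjoin (Set.mem_singleton X⁻¹))
  have hab : PiDvd ϖ (chartClosure A E X ⊔ chartClosure A E X⁻¹) 1 (a - b) := by
    have habC : PiDvdSet A E ϖ (gaussClosure A E ϖ X) (a - b) := by
      have e1 : a - b = (e - b) - (e - a) := by ring
      rw [e1]
      exact hbe.sub hCring hae
    have hmem : a - b ∈ chartClosure A E X ⊔ chartClosure A E X⁻¹ :=
      Subalgebra.sub_mem _ ((le_sup_left : chartClosure A E X ≤ _) ha)
        ((le_sup_right : chartClosure A E X⁻¹ ≤ _) hb)
    obtain ⟨k, hk⟩ := Fermat.Agent.H67.KLConn.exists_pow_mul_mem X (chartClosure A E X)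
      (chartClosure A E X⁻¹) hXf hmidi hmem
    have hXkC : X ^ k ∈ gaussClosure A E ϖ X := hBC _ ((chartClosure A E X).pow_mem hXf k)
    obtain ⟨c, hc, hcd⟩ := hT A E hinjE ϖ hϖ X hX _ hk (habC.mul_left hCring hXkC)
    refine ⟨X⁻¹ ^ k * c, ?_, ?_⟩
    · exact Subalgebra.mul_mem _
        (Subalgebra.pow_mem _ ((le_sup_right : chartClosure A E X⁻¹ ≤ _) hXi) k)
        ((le_sup_left : chartClosure A E X ≤ _) hc)
    · have hXk0 : X ^ k ≠ 0 := pow_ne_zero k hX0
      have : a - b = X⁻¹ ^ k * (X ^ k * (a - b)) := by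
        rw [inv_pow, ← mul_assoc, inv_mul_cancel₀ hXk0, one_mul]
      rw [this, hcd, mul_smul_comm]
  -- connectedness
  have hprime : Prime ϖ := hϖ.prime
  have hcap : ∀ z, z ∈ chartClosure A E X → z ∈ chartClosure A E X⁻¹ →
      ∃ α : A, algebraMap A E α = z := fun z hz hz' => hconst z hz hz'
  rcases Fermat.Agent.H67.KLConn.connected_of_prime hprime (mul_inv_cancel₀ hX0)
    (chartClosure A E X) (chartClosure A E X⁻¹) hXf hXi hgen hmidf hmidi hcap hsat ha hb
    ha2 hb2 hab with ⟨h1, -⟩ | ⟨h1, -⟩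
  · -- `a ∈ ϖ B`, hence `e ∈ ϖ C`
    left
    have e1 : e = (e - a) + a := by ring
    rw [e1]
    exact hae.add hCring (piDvdSet_of_piDvd hBC h1)
  · -- `a - 1 ∈ ϖ B`, hence `1 - e ∈ ϖ C`
    right
    have e1 : 1 - e = -((e - a) + (a - 1)) := by ring
    rw [e1]
    exact (hae.add hCring (piDvdSet_of_piDvd hBC h1)).neg hCring

/-- **ES1-KL-IRR**: irreducibility of the special fibre from the tame normality step. -/
theorem irreducibleFibre_of_normalityAt (hNA : NormalityAtStatement) :
    IrreducibleFibreStatement :=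
  irreducibleFibre_of Fermat.Agent.H85.chartBasics Fermat.Agent.H34.lemmaT
    Fermat.Agent.H89.gaussClosureStatement
    (Fermat.Agent.H33.KLGlue.normality_of_normalityAt hNA Fermat.Agent.H89.gaussClosureStatement)
    (Fermat.Agent.H33.KLGlue.normalityInf_of_normalityAt hNA
      Fermat.Agent.H89.gaussClosureStatement Fermat.Agent.H89.goodBasisInvStatement)

end Fermat.Agent.H91.ES1KL
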