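import Fermat.Agent.H91.ES1KL.TopGen
import Fermat.Agent.H91.ES1KL.IrrFibre
import Fermat.Agent.H2.KLBRGen
import Fermat.Agent.H29.ES1.Interfaces

/-!
# P-DS / ES1-KL (row 581) : exact statements of the open rows (sub-lead helper91)

Target of the block: `Fermat.Agent.H29.ES1.KeyLemma1Statement`, through
`keyLemmaGen_of_modelInputs` (module `TopGen`) with `F₀ = F1 M`, chart `x₀ = jq` (`5 ≤ ℓ`).

* concrete inputs for `X₁(M)`:
  `Sym1Statement` (SYM1), `Gb1Statement` (GB1), `Br1DataStatement` (BR1-DATA), `Br1Statement`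
  (BR1), `QExp1Statement` (QEXP1);
* the abstract route to QEXP1 (no Igusa theorem: irreducibility of the special fibre is the
  OUTPUT `IrreducibleFibreStatement` of the connectedness argument):
  `ReducedFibreStatement` (RED), `FibreFieldStatement` (FIELD), `QExpAbsStatement` (QABS),
  `GaussValGenStatement` (GVAL: the Gauss valuation ring of the model).
-/

set_option autoImplicit false

noncomputable section

namespace Fermat.Agent.H91.ES1KL

open Polynomial ModularCurve AlgebraicCurve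
open Fermat.Agent.H22.KL Fermat.Agent.H29.ES1

/-! ### SYM1 -/

/-- The finite set of the generators `v_d`, `d ∈ (ℤ/M)ˣ` (`v_d = v_{-d}`). -/
def vValues (M : ℕ) [NeZero M] : Finset (LaurentSeries ℚ) := by
  classical
  exact Finset.univ.image (fun d : (ZMod M)ˣ => vGen M (d : ZMod M))

/-- `Q_M = ∏_{d ∈ (ℤ/M)ˣ/±1} (X - v_d)` (product over the distinct values). -/
def vPoly (M : ℕ) [NeZero M] : (LaurentSeries ℚ)[X] :=
  ∏ v ∈ vValues M, (X - C v)

/-- **SYM1**: the coefficients of `Q_M` lie in the function field of `X₀(M)`. -/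
def Sym1Statement : Prop :=
  ∀ (M : ℕ) [NeZero M], 5 ≤ M → ∀ k : ℕ, (vPoly M).coeff k ∈ modularFunctionFieldFull M

/-! ### the model inputs for `X₁(M)` -/

/-- **GB1**. -/
def Gb1Statement : Prop :=
  ∀ (M : ℕ) [NeZero M], 5 ≤ M → ∀ ℓ : ℕ, ℓ.Prime → ¬ ℓ ∣ M → ModelGoodBasisGen (F1 M) ℓ jq

/-- **BR1-DATA**: the branch data of `j` on `X₁(M)` over `ℚ̄` (unramified outside `0, 1728, ∞`,
indices dividing `3, 2, M`). -/
def Br1DataStatement : Prop :=
  ∀ (M : ℕ) [NeZero M], 5 ≤ M →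
    Fermat.Agent.H2.BranchClean (AlgebraicClosure ℚ)
      (Fermat.Agent.H2.jBarGen (F1 M) (jq_mem_F1 (M := M))) (1728 : AlgebraicClosure ℚ) 3 2 M

/-- **BR1**. -/
def Br1Statement : Prop :=
  ∀ (M : ℕ) [NeZero M], 5 ≤ M → ∀ ℓ : ℕ, ℓ.Prime → 5 ≤ ℓ → ¬ ℓ ∣ M →
    ModelBranchGen (F1 M) ℓ jq (6 * M)

/-- **QEXP1** (`q`-expansion principle for `X₁(M)`, = uniqueness of the Gauss valuation), over
number fields containing the `6 M`-th roots of unity. -/
def QExp1Statement : Prop :=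
  ∀ (M : ℕ) [NeZero M], 5 ≤ M → ∀ ℓ : ℕ, ℓ.Prime → 5 ≤ ℓ → ¬ ℓ ∣ M →
    ModelQExpRootGen (F1 M) ℓ jq (6 * M)

/-! ### the abstract route to the `q`-expansion principle -/

/-- **RED**: with a good basis the special fibre `C / ϖ C` is reduced. -/
def ReducedFibreStatement : Prop :=
  ∀ (A : Type) [CommRing A] [IsDomain A] [IsDiscreteValuationRing A]
    (E : Type) [Field E] [Algebra A E] [CharZero E],
    Function.Injective (algebraMap A E) →
    ∀ (ϖ : A), Irreducible ϖ → ∀ (x : E), Transcendental A x →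
    Fermat.Agent.H22.KL.GoodBasis A E ϖ x →
    ∀ z ∈ gaussClosure A E ϖ x, ∀ m : ℕ,
      PiDvdSet A E ϖ (gaussClosure A E ϖ x) (z ^ m) →
      PiDvdSet A E ϖ (gaussClosure A E ϖ x) z

/-- **FIELD**: with a good basis and an irreducible special fibre, `C / ϖ C` is a field. -/
def FibreFieldStatement : Prop :=
  ∀ (A : Type) [CommRing A] [IsDomain A] [IsDiscreteValuationRing A]
    (E : Type) [Field E] [Algebra A E] [CharZero E],
    Function.Injective (algebraMap A E) →
    ∀ (ϖ : A), Irreducible ϖ → ∀ (x : E), Transcendental A x →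
    Fermat.Agent.H22.KL.GoodBasis A E ϖ x →
    IrredFibre A E ϖ x →
    ∀ z ∈ gaussClosure A E ϖ x,
      PiDvdSet A E ϖ (gaussClosure A E ϖ x) z ∨
      ∃ w ∈ gaussClosure A E ϖ x, PiDvdSet A E ϖ (gaussClosure A E ϖ x) (z * w - 1)

/-- **QABS** (abstract `q`-expansion principle): with a good basis and an irreducible special
fibre, every valuation ring of `E` inducing the Gauss valuation on `K(x)` is contained in the
Gauss closure `C(x)` (hence equal to it). -/
def QExpAbsStatement : Prop :=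
  ∀ (A : Type) [CommRing A] [IsDomain A] [IsDiscreteValuationRing A]
    (E : Type) [Field E] [Algebra A E] [CharZero E],
    Function.Injective (algebraMap A E) →
    ∀ (ϖ : A), Irreducible ϖ → ∀ (x : E), Transcendental A x →
    Fermat.Agent.H22.KL.GoodBasis A E ϖ x →
    IrredFibre A E ϖ x →
    ∀ V : ValuationSubring E,
      (∀ a : A, algebraMap A E a ∈ V) → x ∈ V →
      (algebraMap A E ϖ)⁻¹ ∉ V →
      (∀ h : A[X], ¬ (C ϖ ∣ h) → (aeval x h)⁻¹ ∈ V) →
      ∀ y ∈ V, y ∈ gaussClosure A E ϖ x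

/-- **GVAL** (the Gauss valuation ring of the model): the quotients `a / b` of elements of `E₀`
with `A₀`-integral `q`-expansions, `b` with a unit coefficient, lie in ONE valuation ring of `E₀`
inducing the Gauss valuation on `K₁(x)`. -/
def GaussValGenStatement (F₀ : IntermediateField ℚ (LaurentSeries ℚ))
    (x₀ : LaurentSeries ℚ) : Prop :=
  ∀ (K₁ : Type) [Field K₁] [Algebra ℚ K₁] [FiniteDimensional ℚ K₁]
    (A₀ : Type) [CommRing A₀] [IsDomain A₀] [IsDiscreteValuationRing A₀]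
    [Algebra A₀ K₁] [IsFractionRing A₀ K₁]
    [Algebra A₀ (ModelFieldGen K₁ F₀)] [IsScalarTower A₀ K₁ (ModelFieldGen K₁ F₀)],
    ∀ (ϖ : A₀), Irreducible ϖ →
    ∀ (x : ModelFieldGen K₁ F₀), (x : LaurentSeries K₁) = coeffEmb K₁ x₀ →
    ∃ V : ValuationSubring (ModelFieldGen K₁ F₀),
      (∀ a : A₀, algebraMap A₀ (ModelFieldGen K₁ F₀) a ∈ V) ∧ x ∈ V ∧
      (algebraMap A₀ (ModelFieldGen K₁ F₀) ϖ)⁻¹ ∉ V ∧
      (∀ h : A₀[X], ¬ (C ϖ ∣ h) → (aeval x h)⁻¹ ∈ V) ∧
      ∀ (a b : ModelFieldGen K₁ F₀),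
        (∀ n : ℤ, (a : LaurentSeries K₁).coeff n ∈ (algebraMap A₀ K₁).range) →
        (∀ n : ℤ, (b : LaurentSeries K₁).coeff n ∈ (algebraMap A₀ K₁).range) →
        (∃ (n : ℤ) (c : A₀), IsUnit c ∧ algebraMap A₀ K₁ c = (b : LaurentSeries K₁).coeff n) →
        a / b ∈ V

end Fermat.Agent.H91.ES1KL
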