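import Fermat.Agent.H91.ES1KL.AsmGen
import Fermat.Agent.H88.ES.KLInd
import Fermat.Agent.H29.ES1.Interfaces
import Fermat.Agent.H22.ES.KLTop

/-!
# P-DS / ES1-KL (row 581) : induction on the exponent and the top-level chain, GENERIC in `F₀`

* `keyLemmaGen_of_prime` : port of helper88's `keyLemma_of_prime` (P-ES row 360).
* `ModelInputsGen F₀ ℓ` : the inputs specific to the level field at the prime `ℓ`.
* `keyLemmaGen_of_modelInputs` : the key lemma `KeyLemmaGenStatement F₀ ℓ` from the tame normality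
  step, the Gauss normal form, the cusp place and the model inputs.
* `keyLemmaGen_of_cover` : the same with `TameCoverStatement` (row 396) as the only abstract
  input (not imported here to keep the closure small; apply `normalityAt_of_cover`).
-/

set_option autoImplicit false
set_option maxSynthPendingDepth 3

noncomputable section

namespace Fermat.Agent.H91.ES1KL

open ModularCurve AlgebraicCurve Fermat.Agent.H22.ES Fermat.Agent.H88.KLInd

/-- **IND (generic).**  The KEY LEMMA for prime exponents implies the KEY LEMMA (for `ℓ` prime),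
given the Gauss normal form. -/
theorem keyLemmaGen_of_prime (F₀ : IntermediateField ℚ (LaurentSeries ℚ)) (ℓ : ℕ) (hℓ : ℓ.Prime)
    (hG : Fermat.Agent.H29.ES1.GaussNormalFormGenStatement F₀)
    (hprime : KeyLemmaPrimeGenStatement F₀ ℓ) :
    Fermat.Agent.H29.ES1.KeyLemmaGenStatement F₀ ℓ := by
  intro A hA m
  induction m using Nat.strong_induction_on with
  | _ m ih =>
  intro hm hℓm a b ha hb hred hne hord
  have hneb : redL A b ≠ 0 := hred ▸ hne
  have ha0 : incL A a ≠ 0 := ne_zero_of_redL_ne_zero A hne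
  have hb0 : incL A b ≠ 0 := ne_zero_of_redL_ne_zero A hneb
  have hb0' : (⟨coeffMap A.subtype b, hb⟩ : laurentBaseChange (AlgebraicClosure ℚ) F₀) ≠ 0 := by
    intro h
    exact hb0 (congrArg Subtype.val h)
  have ha0' : (⟨coeffMap A.subtype a, ha⟩ : laurentBaseChange (AlgebraicClosure ℚ) F₀) ≠ 0 := by
    intro h
    exact ha0 (congrArg Subtype.val h)
  rcases eq_or_ne m 1 with rfl | hm1
  · refine ⟨(⟨coeffMap A.subtype a, ha⟩ : laurentBaseChange (AlgebraicClosure ℚ) F₀)
      / (⟨coeffMap A.subtype b, hb⟩ : laurentBaseChange (AlgebraicClosure ℚ) F₀), ?_⟩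
    rw [pow_one, div_mul_cancel₀ _ hb0']
  obtain ⟨r, hr, hrm⟩ := Nat.exists_prime_and_dvd hm1
  obtain ⟨m', rfl⟩ := hrm
  have hm'pos : 0 < m' := Nat.pos_of_ne_zero (by rintro rfl; simp at hm)
  have hm'lt : m' < r * m' := by
    have := hr.one_lt
    nlinarith
  have hℓr : ¬ ℓ ∣ r := fun h => hℓm (dvd_mul_of_dvd_left h _)
  have hℓm' : ¬ ℓ ∣ m' := fun h => hℓm (dvd_mul_of_dvd_right h _)
  -- the prime step
  obtain ⟨w1, hw1⟩ := hprime A hA r hr hℓr a b ha hb hred hne
    (fun P => dvd_trans (by exact_mod_cast dvd_mul_right r m') (hord P))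
  have hw10 : w1 ≠ 0 := by
    rintro rfl
    rw [zero_pow hr.ne_zero, zero_mul] at hw1
    exact ha0' hw1.symm
  -- Gauss normal form of `w1`
  obtain ⟨c, a1, b1, ha1, hb1, hc0, hra1, hrb1, hgnf⟩ := hG A ℓ hℓ hA w1 hw10
  have hE1 : (w1 : LaurentSeries (AlgebraicClosure ℚ)) ^ r * incL A b = incL A a := by
    have := congrArg Subtype.val hw1
    simpa using this
  have hE2 : (w1 : LaurentSeries (AlgebraicClosure ℚ)) * incL A b1
      = algebraMap (AlgebraicClosure ℚ) (LaurentSeries (AlgebraicClosure ℚ)) c * incL A a1 := by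
    have := congrArg Subtype.val hgnf
    simpa using this
  have hE3 : algebraMap (AlgebraicClosure ℚ) (LaurentSeries (AlgebraicClosure ℚ)) (c ^ r)
      * incL A (a1 ^ r * b) = incL A (a * b1 ^ r) := by
    rw [map_pow, map_mul, map_mul, map_pow, map_pow, ← hE1, ← mul_assoc, ← mul_pow, ← hE2]
    ring
  have hx : redL A (a1 ^ r * b) ≠ 0 := by
    rw [map_mul, map_pow]
    exact mul_ne_zero (pow_ne_zero _ hra1) hneb
  have hy : redL A (a * b1 ^ r) ≠ 0 := by
    rw [map_mul, map_pow]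
    exact mul_ne_zero hne (pow_ne_zero _ hrb1)
  obtain ⟨u, hu, huc⟩ := exists_unit_of_mul_eq A (c ^ r) _ _ hx hy hE3
  obtain ⟨v, hv, hvc⟩ := exists_unit_of_pow A c r hr.ne_zero u hu huc
  -- the identity over `A`
  have hE4 : HahnSeries.C v ^ r * (a1 ^ r * b) = a * b1 ^ r := by
    apply incL_injective A
    rw [← hE3, map_mul, map_pow (incL A) (HahnSeries.C v)]
    congr 1
    rw [map_pow]
    congr 1
    show coeffMap A.subtype (HahnSeries.C v) = _
    rw [coeffMap_subtype_C, hvc]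
  -- reduce
  have hE5 : (HahnSeries.C (IsLocalRing.residue A v) * redL A a1) ^ r = redL A b1 ^ r := by
    have := congrArg (redL A) hE4
    rw [map_mul, map_mul, map_mul, map_pow, map_pow, map_pow, ← hred] at this
    have h2 : redL A (HahnSeries.C v) = HahnSeries.C (IsLocalRing.residue A v) := coeffMap_C _ _
    rw [h2] at this
    have h3 : redL A a * ((HahnSeries.C (IsLocalRing.residue A v) * redL A a1) ^ r)
        = redL A a * redL A b1 ^ r := by
      rw [← this]
      ring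
    exact mul_left_cancel₀ hne h3
  obtain ⟨ζ, hζr, hζ⟩ := exists_root_of_unity_lift A ℓ hℓ hA r hr hℓr
    (HahnSeries.C (IsLocalRing.residue A v) * redL A a1 / redL A b1)
    (by rw [div_pow, hE5, div_self (pow_ne_zero _ hrb1)])
  have hE6 : HahnSeries.C (IsLocalRing.residue A v) * redL A a1
      = HahnSeries.C (IsLocalRing.residue A ζ) * redL A b1 := by
    rw [← hζ, div_mul_cancel₀ _ hrb1]
  -- the corrected numerator
  set t : A := ζ ^ (r - 1) * v with ht
  have hζr' : ζ ^ (r - 1) * ζ = 1 := by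
    rw [← pow_succ, Nat.sub_add_cancel hr.one_le, hζr]
  set a1' : LaurentSeries A := HahnSeries.C t * a1 with ha1'
  have hreda1' : redL A a1' = redL A b1 := by
    rw [ha1', map_mul]
    have h2 : redL A (HahnSeries.C t) = HahnSeries.C (IsLocalRing.residue A t) := coeffMap_C _ _
    rw [h2, ht, map_mul, map_mul, mul_assoc, hE6, ← mul_assoc, ← map_mul, ← map_mul, hζr',
      map_one, map_one, one_mul]
  have hinca1' : incL A a1' = algebraMap (AlgebraicClosure ℚ) (LaurentSeries (AlgebraicClosure ℚ))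
      ((t : A) : AlgebraicClosure ℚ) * incL A a1 := by
    rw [ha1', map_mul]
    congr 1
    exact coeffMap_subtype_C A t
  have ha1'mem : coeffMap A.subtype a1' ∈ laurentBaseChange (AlgebraicClosure ℚ) F₀ := by
    show incL A a1' ∈ laurentBaseChange (AlgebraicClosure ℚ) F₀
    rw [hinca1']
    exact mul_mem ((laurentBaseChange (AlgebraicClosure ℚ) F₀).algebraMap_mem _) ha1
  have hb10 : incL A b1 ≠ 0 := ne_zero_of_redL_ne_zero A hrb1
  have hb10' : (⟨coeffMap A.subtype b1, hb1⟩ : laurentBaseChange (AlgebraicClosure ℚ) F₀) ≠ 0 := by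
    intro h
    exact hb10 (congrArg Subtype.val h)
  -- the corrected root
  set w1' : laurentBaseChange (AlgebraicClosure ℚ) F₀ :=
    algebraMap (AlgebraicClosure ℚ) (laurentBaseChange (AlgebraicClosure ℚ) F₀)
      (((ζ ^ (r - 1) : A)) : AlgebraicClosure ℚ) * w1 with hw1'
  have hw1'0 : w1' ≠ 0 := by
    rw [hw1']
    refine mul_ne_zero ?_ hw10
    rw [Ne, map_eq_zero]
    intro h0
    have h1 := congrArg Subtype.val hζr'
    rw [MulMemClass.coe_mul, h0, zero_mul] at h1
    exact zero_ne_one h1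
  have hw1'r : w1' ^ r = w1 ^ r := by
    rw [hw1', mul_pow, ← map_pow]
    have : (((ζ ^ (r - 1) : A)) : AlgebraicClosure ℚ) ^ r = 1 := by
      have h1 : (ζ ^ (r - 1)) ^ r = 1 := by
        rw [← pow_mul, mul_comm, pow_mul, hζr, one_pow]
      have h2 := congrArg Subtype.val h1
      simpa using h2
    rw [this, map_one, one_mul]
  have hw1'b : w1' * (⟨coeffMap A.subtype b1, hb1⟩ : laurentBaseChange (AlgebraicClosure ℚ) F₀)
      = (⟨coeffMap A.subtype a1', ha1'mem⟩ : laurentBaseChange (AlgebraicClosure ℚ) F₀) := by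
    apply Subtype.ext
    show ((w1' : laurentBaseChange (AlgebraicClosure ℚ) F₀) : LaurentSeries (AlgebraicClosure ℚ)) * incL A b1
      = incL A a1'
    rw [hinca1', hw1']
    show (algebraMap (AlgebraicClosure ℚ) (LaurentSeries (AlgebraicClosure ℚ))
        (((ζ ^ (r - 1) : A)) : AlgebraicClosure ℚ) * (w1 : LaurentSeries (AlgebraicClosure ℚ)))
        * incL A b1 = _
    rw [mul_assoc, hE2, ← mul_assoc, ← map_mul, ht, MulMemClass.coe_mul, hvc]
  -- divisibility of orders
  have hord' : ∀ P : Place (AlgebraicClosure ℚ) (laurentBaseChange (AlgebraicClosure ℚ) F₀),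
      (m' : ℤ) ∣ P.ord (⟨coeffMap A.subtype a1', ha1'mem⟩ : laurentBaseChange (AlgebraicClosure ℚ) F₀)
        - P.ord (⟨coeffMap A.subtype b1, hb1⟩ : laurentBaseChange (AlgebraicClosure ℚ) F₀) := by
    intro P
    have h1 : P.ord (⟨coeffMap A.subtype a, ha⟩ : laurentBaseChange (AlgebraicClosure ℚ) F₀)
        = r * P.ord w1' + P.ord (⟨coeffMap A.subtype b, hb⟩ : laurentBaseChange (AlgebraicClosure ℚ) F₀) := by
      rw [← hw1, ← hw1'r, P.ord_mul (pow_ne_zero _ hw1'0) hb0', ord_pow_nat]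
    have h2 : P.ord (⟨coeffMap A.subtype a1', ha1'mem⟩ : laurentBaseChange (AlgebraicClosure ℚ) F₀)
        = P.ord w1' + P.ord (⟨coeffMap A.subtype b1, hb1⟩ : laurentBaseChange (AlgebraicClosure ℚ) F₀) := by
      rw [← hw1'b, P.ord_mul hw1'0 hb10']
    have h3 := hord P
    rw [h1, h2] at *
    have h4 : ((r : ℤ) * (m' : ℤ)) ∣ (r : ℤ) * P.ord w1' := by
      have : (r : ℤ) * P.ord w1'
          + P.ord (⟨coeffMap A.subtype b, hb⟩ : laurentBaseChange (AlgebraicClosure ℚ) F₀)
          - P.ord (⟨coeffMap A.subtype b, hb⟩ : laurentBaseChange (AlgebraicClosure ℚ) F₀)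
          = (r : ℤ) * P.ord w1' := by ring
      rw [this] at h3
      exact_mod_cast h3
    have h5 : (m' : ℤ) ∣ P.ord w1' :=
      (mul_dvd_mul_iff_left (by exact_mod_cast hr.ne_zero : (r : ℤ) ≠ 0)).mp h4
    simpa using h5
  -- induction hypothesis
  obtain ⟨w', hw'⟩ := ih m' hm'lt hm'pos hℓm' a1' b1 ha1'mem hb1 hreda1'
    (by rw [show coeffMap (IsLocalRing.residue A) a1' = redL A a1' from rfl, hreda1']; exact hrb1)
    hord'
  have hw'eq : w' ^ m' = w1' := by
    apply mul_right_cancel₀ hb10'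
    rw [hw', hw1'b]
  refine ⟨w', ?_⟩
  rw [mul_comm r m', pow_mul, hw'eq, hw1'r, hw1]


/-- The inputs specific to the level field `F₀` at the prime `ℓ`: a coordinate `x₀` with good
basis, branch data and the `q`-expansion principle (twin of `H22.KL.ModelInputs`). -/
def ModelInputsGen (F₀ : IntermediateField ℚ (LaurentSeries ℚ)) (ℓ : ℕ) : Prop :=
  ∃ (x₀ : LaurentSeries ℚ) (M : ℕ), x₀ ∈ F₀ ∧ 0 < M ∧
    ModelTranscendentalGen F₀ x₀ ∧ ModelGoodBasisGen F₀ ℓ x₀ ∧
    ModelBranchGen F₀ ℓ x₀ M ∧ ModelQExpGen F₀ ℓ x₀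

/-- The same with the `q`-expansion principle only over number fields containing the `M`-th
roots of unity. -/
def ModelInputsRootGen (F₀ : IntermediateField ℚ (LaurentSeries ℚ)) (ℓ : ℕ) : Prop :=
  ∃ (x₀ : LaurentSeries ℚ) (M : ℕ), x₀ ∈ F₀ ∧ 0 < M ∧
    ModelTranscendentalGen F₀ x₀ ∧ ModelGoodBasisGen F₀ ℓ x₀ ∧
    ModelBranchGen F₀ ℓ x₀ M ∧ ModelQExpRootGen F₀ ℓ x₀ M

theorem ModelInputsGen.root {F₀ : IntermediateField ℚ (LaurentSeries ℚ)} {ℓ : ℕ}
    (h : ModelInputsGen F₀ ℓ) : ModelInputsRootGen F₀ ℓ := by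
  obtain ⟨x₀, M, hx₀, hM0, hTr, hGB, hBR, hQ⟩ := h
  exact ⟨x₀, M, hx₀, hM0, hTr, hGB, hBR, hQ.root M⟩

theorem modelInputs_iff (N ℓ : ℕ) :
    Fermat.Agent.H22.KL.ModelInputs N ℓ ↔ ModelInputsGen (modularFunctionFieldFull N) ℓ :=
  Iff.rfl

/-- **ES1-KL, top level (generic)**: the key lemma for the level field `F₀` at `ℓ` from the tame
normality step, the Gauss normal form, the cusp place and the model inputs (`q`-expansion
principle over number fields with enough roots of unity). -/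
theorem keyLemmaGen_of_modelInputsRoot (hNA : Fermat.Agent.H22.KL.NormalityAtStatement)
    (F₀ : IntermediateField ℚ (LaurentSeries ℚ)) (ℓ : ℕ) (hℓ : ℓ.Prime)
    (hG : Fermat.Agent.H29.ES1.GaussNormalFormGenStatement F₀)
    (hCusp : ModelCuspPlaceGen F₀) (hM : ModelInputsRootGen F₀ ℓ) :
    Fermat.Agent.H29.ES1.KeyLemmaGenStatement F₀ ℓ := by
  obtain ⟨x₀, M, hx₀, hM0, hTr, hGB, hBR, hQ⟩ := hM
  exact keyLemmaGen_of_prime F₀ ℓ hℓ hG
    (keyLemmaPrimeGen_of_model F₀ ℓ hℓ x₀ hx₀ hCusp M hM0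
      (Fermat.Agent.H22.KL.abstractKeyLemma_of_normalityAt hNA) hTr hGB hBR hQ)

/-- **ES1-KL, top level (generic)**: the key lemma for the level field `F₀` at `ℓ` from the tame
normality step, the Gauss normal form, the cusp place and the model inputs. -/
theorem keyLemmaGen_of_modelInputs (hNA : Fermat.Agent.H22.KL.NormalityAtStatement)
    (F₀ : IntermediateField ℚ (LaurentSeries ℚ)) (ℓ : ℕ) (hℓ : ℓ.Prime)
    (hG : Fermat.Agent.H29.ES1.GaussNormalFormGenStatement F₀)
    (hCusp : ModelCuspPlaceGen F₀) (hM : ModelInputsGen F₀ ℓ) :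
    Fermat.Agent.H29.ES1.KeyLemmaGenStatement F₀ ℓ :=
  keyLemmaGen_of_modelInputsRoot hNA F₀ ℓ hℓ hG hCusp hM.root

end Fermat.Agent.H91.ES1KL
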