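import Fermat.Agent.H91.ES1KL.QExpAsm
import Fermat.Agent.H91.ES1KL.BasicGen
import Fermat.Agent.H91.ES1KL.TopGen
import Fermat.Agent.H70.KL.NormalityAt
import Fermat.Agent.H57.ES1.GaussNormalForm1

/-!
# P-DS / ES1-KL (rows 815, 816) : the key lemma for `X₁(M)` at `ℓ ≥ 5` from the model inputs

* `qExp1_of_parts` (row 815) : QEXP1 from GB1 + BR1 + GVAL + QABS.
* `keyLemma1_five_le_of_parts` (row 816) : `KeyLemmaGenStatement (F1 M) ℓ` for `ℓ ≥ 5`, `ℓ ∤ M`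
  from GB1 + BR1 + QEXP1.
* `keyLemma1_five_le` : the same from GB1 + BR1-DATA + GVAL + FIELD.
-/

set_option autoImplicit false

noncomputable section

namespace Fermat.Agent.H91.ES1KL

open ModularCurve AlgebraicCurve Fermat.Agent.H22.KL Fermat.Agent.H29.ES1

/-- **ES1-KL-QEXP1** (row 815). -/
theorem qExp1_of_parts (hGB : Gb1Statement) (hBR : Br1Statement)
    (hV : ∀ (M : ℕ) [NeZero M], 5 ≤ M → GaussValGenStatement (F1 M) jq)
    (hQ : QExpAbsStatement) : QExp1Statement := by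
  intro M _ hM ℓ hℓ h5 hℓM
  exact modelQExpRootGen_of_parts Fermat.Agent.H70.KL.normalityAt hQ (F1 M) ℓ jq (6 * M)
    (modelTranscendentalGen_jq (F1 M)) (hGB M hM ℓ hℓ hℓM) (hBR M hM ℓ hℓ h5 hℓM) (hV M hM)

/-- **ES1-KL-ASM1** (row 816): the key lemma for `X₁(M)` at `ℓ ≥ 5`. -/
theorem keyLemma1_five_le_of_parts (hGB : Gb1Statement) (hBR : Br1Statement)
    (hQ : QExp1Statement) (M : ℕ) [NeZero M] (hM : 5 ≤ M) (ℓ : ℕ) (hℓ : ℓ.Prime) (h5 : 5 ≤ ℓ)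
    (hℓM : ¬ ℓ ∣ M) : KeyLemmaGenStatement (F1 M) ℓ :=
  keyLemmaGen_of_modelInputsRoot Fermat.Agent.H70.KL.normalityAt (F1 M) ℓ hℓ
    (Fermat.Agent.H57.ES1.gaussNormalForm1 M)
    (modelCuspPlaceGen (F1 M) (jq_mem_F1 (M := M)))
    ⟨jq, 6 * M, jq_mem_F1 (M := M), by omega, modelTranscendentalGen_jq (F1 M),
      hGB M hM ℓ hℓ hℓM, hBR M hM ℓ hℓ h5 hℓM, hQ M hM ℓ hℓ h5 hℓM⟩

end Fermat.Agent.H91.ES1KL
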