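import Fermat.Agent.H91.ES1KL.Interfaces1
import Fermat.Agent.H91.KLNorm.Inst

/-!
# P-DS / ES1-KL-QABS (row 813) : the abstract `q`-expansion principle

`qExpAbs_of_field : FibreFieldStatement → QExpAbsStatement` : if `C / ϖ C` is a field, every
valuation ring `V` of `E` inducing the Gauss valuation on `K(x)` is contained in the Gauss
closure `C(x)`.
-/

set_option autoImplicit false
set_option linter.style.haveILetI false
set_option linter.unusedSectionVars false

noncomputable section

open Polynomial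

namespace Fermat.Agent.H91.ES1KL

open Fermat.Agent.H22.KL
open Fermat.Agent.H67.KLConn (PiDvd)
open Fermat.Agent.H87.KL (evX IntX GC)
open Fermat.Agent.H91.KLNorm (polyAlgE polyAlgK)

section QAbs

variable {A : Type} [CommRing A] {E : Type} [Field E] [Algebra A E]

theorem qabs_aeval_mem (V : ValuationSubring E) {x : E}
    (hVA : ∀ a : A, algebraMap A E a ∈ V) (hVx : x ∈ V) (H : A[X]) : aeval x H ∈ V := by
  induction H using Polynomial.induction_on' with
  | add p q hp hq =>
    rw [map_add]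
    exact V.add_mem _ _ hp hq
  | monomial n a =>
    rw [aeval_monomial]
    exact V.mul_mem _ _ (hVA a) (pow_mem hVx n)

theorem qabs_intX_mem (V : ValuationSubring E) {x : E}
    (hVA : ∀ a : A, algebraMap A E a ∈ V) (hVx : x ∈ V) {y : E} (hy : IntX (A := A) x y) :
    y ∈ V := by
  obtain ⟨p, hp, h0⟩ := hy
  let g : A[X] →+* V :=
    (evX (A := A) x).codRestrict V.toSubring (fun H => qabs_aeval_mem V hVA hVx H)
  have hint : IsIntegral V y := by
    refine ⟨p.map g, hp.map g, ?_⟩
    rw [Polynomial.eval₂_map]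
    exact h0
  obtain ⟨v, hv⟩ := IsIntegrallyClosed.isIntegral_iff.mp hint
  rw [← hv]
  exact v.2

end QAbs

/-- **ES1-KL-QABS**. -/
theorem qExpAbs_of_field (hF : FibreFieldStatement) : QExpAbsStatement := by
  intro A _ _ _ E _ _ _ hinj ϖ hϖ x hx hGB hIrr V hVA hVx hVϖ hVh y hy
  have hprime : Prime ϖ := hϖ.prime
  have hϖE : algebraMap A E ϖ ≠ 0 := fun h => hϖ.ne_zero (hinj (by rw [h, map_zero]))
  -- Step 1: `C ⊆ V`
  have hCV : ∀ z ∈ gaussClosure A E ϖ x, z ∈ V := by
    intro z hz
    rw [Fermat.Agent.H87.KL.mem_gaussClosure_iff hx] at hz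
    obtain ⟨H, hH, hint⟩ := hz
    have h1 : aeval x H * z ∈ V := qabs_intX_mem V hVA hVx hint
    have h2 : (aeval x H)⁻¹ ∈ V := hVh H hH
    have hH0 : aeval x H ≠ 0 := by
      intro h
      apply hH
      have : H = 0 := (transcendental_iff_injective.1 hx) (by rw [h, map_zero])
      rw [this]
      exact dvd_zero _
    have e : z = (aeval x H)⁻¹ * (aeval x H * z) := by
      rw [← mul_assoc, inv_mul_cancel₀ hH0, one_mul]
    rw [e]
    exact V.mul_mem _ _ h2 h1
  -- Step 2: every element of `E` is in `ϖ⁻ᵏ C`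
  have hpow : ∀ y : E, ∃ k : ℕ, algebraMap A E ϖ ^ k * y ∈ gaussClosure A E ϖ x := by
    intro y
    letI := polyAlgE A E x
    letI := polyAlgK A E x
    haveI := Fermat.Agent.H91.KLNorm.polyAlg_isScalarTower A E x
    haveI := Fermat.Agent.H91.KLNorm.polyAlg_isFractionRing A E hx
    haveI := Fermat.Agent.H91.KLNorm.finiteDimensional_of_goodBasis A E hGB
    have halg : IsAlgebraic ↥(chartField A E x) y := Algebra.IsAlgebraic.isAlgebraic y
    have halg' : IsAlgebraic A[X] y :=
      (IsFractionRing.isAlgebraic_iff A[X] ↥(chartField A E x) E).mpr halg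
    obtain ⟨d, hd0, hd⟩ := halg'.exists_integral_multiple
    obtain ⟨k, d', hd', rfl⟩ := WfDvdMonoid.max_power_factor hd0
      (Fermat.Agent.H91.KLNorm.prime_C_of_irreducible A hϖ).irreducible
    refine ⟨k, ?_⟩
    rw [Fermat.Agent.H87.KL.mem_gaussClosure_iff hx]
    refine ⟨d', hd', ?_⟩
    have e : aeval x d' * (algebraMap A E ϖ ^ k * y) = (C ϖ ^ k * d') • y := by
      rw [Algebra.smul_def]
      show _ = aeval x (C ϖ ^ k * d') * y
      rw [map_mul, map_pow, aeval_C]
      ring
    rw [e]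
    exact hd
  -- Step 3
  classical
  have hk := Nat.find_spec (hpow y)
  have hmin := fun m => Nat.find_min (hpow y) (m := m)
  rcases Nat.eq_zero_or_pos (Nat.find (hpow y)) with h0 | hpos
  · rw [h0, pow_zero, one_mul] at hk
    exact hk
  · exfalso
    obtain ⟨k', hk'⟩ : ∃ k', Nat.find (hpow y) = k' + 1 := ⟨Nat.find (hpow y) - 1, by omega⟩
    rw [hk'] at hk
    have hnot : ¬ algebraMap A E ϖ ^ k' * y ∈ gaussClosure A E ϖ x := hmin k' (by omega)
    obtain ⟨hBC, hCring', -⟩ := Fermat.Agent.H89.gaussClosureStatement A E hinj ϖ hϖ x hx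
    rcases hF A E hinj ϖ hϖ x hx hGB hIrr _ hk with ⟨c, hc, hzc⟩ | ⟨w, hw, c, hc, hzc⟩
    · apply hnot
      have : algebraMap A E ϖ ^ k' * y = c := by
        apply mul_left_cancel₀ hϖE
        rw [← hzc, pow_succ]
        ring
      rw [this]
      exact hc
    · apply hVϖ
      have e : (algebraMap A E ϖ)⁻¹ = algebraMap A E ϖ ^ k' * y * w - c := by
        apply mul_left_cancel₀ hϖE
        rw [mul_inv_cancel₀ hϖE, mul_sub, ← hzc, pow_succ]
        ring
      rw [e]
      exact sub_mem
        (V.mul_mem _ _ (V.mul_mem _ _ (pow_mem (hVA ϖ) k') hy) (hCV w hw)) (hCV c hc)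

end Fermat.Agent.H91.ES1KL
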