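import Fermat.Agent.H91.ES1KL.Interfaces1
import Fermat.Agent.H27.KLGB.ModelTrT
import Fermat.Agent.H23.ES1A.Defs
import Fermat.Agent.H29.ES1.Hecke

/-!
# P-DS / ES1-KL (row 581), MILESTONE 2 (`ℓ = 3, 2`) : exact statements (sub-lead helper91)

For `ℓ = 3` (resp. `ℓ = 2`) the chart `j` on `X₁(M)` is wildly ramified over `j = 0`
(resp. `j = 1728`).  As for `X₀(N)` we pass to the level field

  `F1x M q = F1 M ⊔ modularFunctionFieldFull q`,  `q = 2` for `ℓ = 3`,  `q = 3` for `ℓ = 2`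

(the function field of `X_{Γ₁(M) ∩ Γ₀(q)}`), with the chart `t₂ = Fermat.Agent.H17.ESD.t2S ℚ`
(resp. `t₃ = Fermat.Agent.H1.ESD.t3 ℚ`), and come back by the norm trick: the degree of
`F1x M q` over `F1 M` is a power of `ℓ`.

The chain `keyLemmaGen_of_modelInputsRoot` and `modelQExpRootGen_of_parts` are generic in the
level field, so the new inputs are:

* `GbxStatement` (GBX) : good basis of `F1x M q` in the chart `j` (one more simple extension);
  the chart `t` follows by the tower step (`TowerGen`);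
* `ModxStatement` (MODX) : a modular model for `F1x M q`;
* `BranchOfModelStatement` (BRMODEL) : branch data of `j` from a modular model (generic);
* `DegxStatement` (DEGX), `NormTrickGenStatement` (NORMGEN).
-/

set_option autoImplicit false

noncomputable section

namespace Fermat.Agent.H91.ES1KL

open Polynomial ModularCurve AlgebraicCurve
open Fermat.Agent.H22.KL Fermat.Agent.H29.ES1
open scoped MatrixGroups IntermediateField

/-- The level field of `X_{Γ₁(M) ∩ Γ₀(q)}`. -/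
def F1x (M q : ℕ) [NeZero M] : IntermediateField ℚ (LaurentSeries ℚ) :=
  F1 M ⊔ modularFunctionFieldFull q

theorem le_F1x (M q : ℕ) [NeZero M] : F1 M ≤ F1x M q := le_sup_left

theorem full_le_F1x (M q : ℕ) [NeZero M] : modularFunctionFieldFull q ≤ F1x M q := le_sup_right

theorem jq_mem_F1x (M q : ℕ) [NeZero M] : jq ∈ F1x M q := le_F1x M q (jq_mem_F1 (M := M))

theorem mem_F1x_of_mem_full (M q : ℕ) [NeZero M] {x : LaurentSeries ℚ}
    (hx : x ∈ modularFunctionFieldFull q) : x ∈ F1x M q := full_le_F1x M q hx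

theorem t2S_mem_F1x (M : ℕ) [NeZero M] : Fermat.Agent.H17.ESD.t2S ℚ ∈ F1x M 2 := by
  have h : Fermat.Agent.H17.ESD.t2S ℚ ∈ modularFunctionFieldFull 2 :=
    Fermat.Agent.H27.KLGB.t2_mem_full_rat 2 (dvd_refl 2)
  exact mem_F1x_of_mem_full M 2 h

theorem t3_mem_full_three : Fermat.Agent.H1.ESD.t3 ℚ ∈ modularFunctionFieldFull 3 :=
  Fermat.Agent.H27.KLGB.t3_mem_full_rat 3 (dvd_refl 3)

theorem t3_mem_F1x (M : ℕ) [NeZero M] : Fermat.Agent.H1.ESD.t3 ℚ ∈ F1x M 3 :=
  mem_F1x_of_mem_full M 3 t3_mem_full_three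

/-- The inclusion of the base changes of two level fields. -/
def inclGen (L : Type*) [Field L] [Algebra ℚ L]
    {F₀ F₀' : IntermediateField ℚ (LaurentSeries ℚ)} (hle : F₀ ≤ F₀') :
    laurentBaseChange L F₀ →ₐ[L] laurentBaseChange L F₀' :=
  IntermediateField.inclusion (es1_laurentBaseChange_mono L hle)

@[simp]
theorem coe_inclGen (L : Type*) [Field L] [Algebra ℚ L]
    {F₀ F₀' : IntermediateField ℚ (LaurentSeries ℚ)} (hle : F₀ ≤ F₀')
    (x : laurentBaseChange L F₀) : (inclGen L hle x : LaurentSeries L) = (x : LaurentSeries L) :=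
  IntermediateField.coe_inclusion _ x

/-- **GBX**: good basis of `F1x M q` in the chart `j`, at every prime `ℓ ∤ q M`. -/
def GbxStatement : Prop :=
  ∀ (M : ℕ) [NeZero M], 5 ≤ M → ∀ q : ℕ, (q = 2 ∨ q = 3) →
    ∀ ℓ : ℕ, ℓ.Prime → ¬ ℓ ∣ M → ℓ ≠ q → ModelGoodBasisGen (F1x M q) ℓ jq

/-- **MODX**: the level field `F1x M q` has a modular model (in the sense of helper23's generic
ES1-A) with group containing `Γ(q M)`. -/
def ModxStatement : Prop :=
  ∀ (M : ℕ) [NeZero M], 5 ≤ M → ∀ q : ℕ, (q = 2 ∨ q = 3) →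
    ∃ X : Fermat.Agent.H23.ES1A.Model, X.IsModular ∧
      X.F = laurentBaseChange ℂ (F1x M q) ∧
      ((X.j : ↥X.F) : LaurentSeries ℂ) = coeffEmb ℂ jq ∧
      CongruenceSubgroup.Gamma (q * M) ≤ X.Γ

/-- **BRMODEL** (generic): a level field `F₀ ∋ j`, finite over `ℚ̄(j)`, whose base change to `ℂ`
has a modular model with group containing `Γ(N)`, has the branch data of `j`: unramified
outside `0, 1728, ∞`, indices dividing `3, 2, N`. -/
def BranchOfModelStatement : Prop :=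
  ∀ (F₀ : IntermediateField ℚ (LaurentSeries ℚ)) (hj : jq ∈ F₀) (N : ℕ) [NeZero N]
    (X : Fermat.Agent.H23.ES1A.Model), X.IsModular →
    X.F = laurentBaseChange ℂ F₀ →
    ((X.j : ↥X.F) : LaurentSeries ℂ) = coeffEmb ℂ jq →
    CongruenceSubgroup.Gamma N ≤ X.Γ →
    FiniteDimensional ↥((AlgebraicClosure ℚ)⟮Fermat.Agent.H2.jBarGen F₀ hj⟯)
      ↥(laurentBaseChange (AlgebraicClosure ℚ) F₀) →
    Fermat.Agent.H2.BranchClean (AlgebraicClosure ℚ) (Fermat.Agent.H2.jBarGen F₀ hj)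
      (1728 : AlgebraicClosure ℚ) 3 2 N

/-- **BRX-DATA**: the branch data of `j` on `F1x M q`. -/
def BrxDataStatement : Prop :=
  ∀ (M : ℕ) [NeZero M], 5 ≤ M → ∀ q : ℕ, (q = 2 ∨ q = 3) →
    Fermat.Agent.H2.BranchClean (AlgebraicClosure ℚ)
      (Fermat.Agent.H2.jBarGen (F1x M q) (jq_mem_F1x M q)) (1728 : AlgebraicClosure ℚ) 3 2
      (q * M)

/-- **DEGX**: the degree of `F1x M q` over `F1 M` (over `ℚ̄`) is a power of `3` for `q = 2` and
a power of `2` for `q = 3`. -/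
def DegxStatement : Prop :=
  ∀ (M : ℕ) [NeZero M], 5 ≤ M →
    (FiniteAlong (AlgebraicClosure ℚ) (inclGen (AlgebraicClosure ℚ) (le_F1x M 2)) ∧
      ∃ k : ℕ, finrankAlong (AlgebraicClosure ℚ) (inclGen (AlgebraicClosure ℚ) (le_F1x M 2))
        = 3 ^ k) ∧
    (FiniteAlong (AlgebraicClosure ℚ) (inclGen (AlgebraicClosure ℚ) (le_F1x M 3)) ∧
      ∃ k : ℕ, finrankAlong (AlgebraicClosure ℚ) (inclGen (AlgebraicClosure ℚ) (le_F1x M 3))
        = 2 ^ k)

/-- **NORMGEN** (generic norm trick): if the degree of `F₀'` over `F₀` is a power of the prime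
`ℓ`, the key lemma for `F₀'` at `ℓ` implies the key lemma for `F₀` at `ℓ`. -/
def NormTrickGenStatement : Prop :=
  ∀ (F₀ F₀' : IntermediateField ℚ (LaurentSeries ℚ)) (hle : F₀ ≤ F₀') (ℓ : ℕ), ℓ.Prime →
    FiniteAlong (AlgebraicClosure ℚ) (inclGen (AlgebraicClosure ℚ) hle) →
    (∃ k : ℕ, finrankAlong (AlgebraicClosure ℚ) (inclGen (AlgebraicClosure ℚ) hle) = ℓ ^ k) →
    KeyLemmaGenStatement F₀' ℓ → KeyLemmaGenStatement F₀ ℓ

end Fermat.Agent.H91.ES1KL
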