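import Fermat.Agent.H91.ES1KL.KL1
import Fermat.Agent.H91.ES1KL.QAbs
import Fermat.Agent.H91.ES1KL.Br1
import Fermat.Agent.H74.ES1KL.GB1
import Fermat.Agent.H6.ES1KL.Br1Data
import Fermat.Agent.H61.ES1KL.GaussVal
import Fermat.Agent.H88.ES1KL.FibreField
import Fermat.Agent.H81.KLRed.Reduced

/-!
# P-DS / ES1-KL (row 581), MILESTONE 1 : the key lemma for `X₁(M)` at `ℓ ≥ 5`, UNCONDITIONAL

Inputs (all landed): GB1 (helper74, SYM1 by helper51), BR1-DATA (helper6), GVAL (helper61),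
RED (helper81), FIELD (helper88), QABS / QEXP1 / chain (helper91), GNF1 (helper57),
tame normality (row 396).
-/

set_option autoImplicit false

noncomputable section

namespace Fermat.Agent.H91.ES1KL

open ModularCurve AlgebraicCurve Fermat.Agent.H22.KL Fermat.Agent.H29.ES1

/-- **GB1**, unconditional. -/
theorem gb1Statement : Gb1Statement := fun M _ hM ℓ hℓ hℓM =>
  Fermat.Agent.H74.ES1KL.modelGoodBasis_F1 (M := M) vFunStatement_uncond (by omega) ℓ hℓ hℓM

/-- **FIELD**, unconditional. -/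
theorem fibreFieldStatement : FibreFieldStatement :=
  Fermat.Agent.H88.ES1KL.fibreField Fermat.Agent.H81.KLRed.reducedFibre

/-- **QABS** (abstract `q`-expansion principle), unconditional. -/
theorem qExpAbsStatement : QExpAbsStatement := qExpAbs_of_field fibreFieldStatement

/-- **QEXP1** (`q`-expansion principle for `X₁(M)`, `ℓ ≥ 5`), unconditional. -/
theorem qExp1Statement : QExp1Statement :=
  qExp1_of_parts gb1Statement Fermat.Agent.H6.ES1KL.br1
    (fun M _ _ => Fermat.Agent.H61.ES1KL.gaussValGen_F1 M) qExpAbsStatement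

/-- **MILESTONE 1**: the key lemma for `X₁(M)` at every prime `ℓ ≥ 5`, `ℓ ∤ M`. -/
theorem keyLemma1_five_le (M : ℕ) [NeZero M] (hM : 5 ≤ M) (ℓ : ℕ) (hℓ : ℓ.Prime) (h5 : 5 ≤ ℓ)
    (hℓM : ¬ ℓ ∣ M) : KeyLemmaGenStatement (F1 M) ℓ :=
  keyLemma1_five_le_of_parts gb1Statement Fermat.Agent.H6.ES1KL.br1 qExp1Statement M hM ℓ hℓ h5
    hℓM

end Fermat.Agent.H91.ES1KL
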