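import Fermat.Agent.H91.ES1KL.Interfaces1
import Fermat.Agent.H91.ES1KL.AsmGen
import Fermat.Agent.H95.KL.ChartConst

/-!
# P-DS / ES1-KL-QEXP1 (row 815) : the `q`-expansion principle from the parts, GENERIC in `F₀`

`modelQExpRootGen_of_parts` : for a level field `F₀` with coordinate `x₀`, the tame normality
step + the abstract `q`-expansion principle (QABS) + TR + GB + BR + the Gauss valuation ring of
the model (GVAL) give `ModelQExpRootGen F₀ ℓ x₀ M`.  No Igusa-type theorem is used: the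
irreducibility of the special fibre is `irreducibleFibre_of_normalityAt`.
-/

set_option autoImplicit false

noncomputable section

namespace Fermat.Agent.H91.ES1KL

open Polynomial ModularCurve AlgebraicCurve
open Fermat.Agent.H22.KL Fermat.Agent.H93.KL

/-- The special fibre of the model is irreducible. -/
theorem modelIrredFibre_of_parts (hNA : NormalityAtStatement)
    (F₀ : IntermediateField ℚ (LaurentSeries ℚ)) (ℓ : ℕ) (x₀ : LaurentSeries ℚ) (M : ℕ)
    (hTr : ModelTranscendentalGen F₀ x₀) (hGB : ModelGoodBasisGen F₀ ℓ x₀)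
    (hBR : ModelBranchGen F₀ ℓ x₀ M)
    (K₁ : Type) [Field K₁] [Algebra ℚ K₁] [FiniteDimensional ℚ K₁]
    (A₀ : Type) [CommRing A₀] [IsDomain A₀] [IsDiscreteValuationRing A₀]
    [Algebra A₀ K₁] [IsFractionRing A₀ K₁]
    [Algebra A₀ (ModelFieldGen K₁ F₀)] [IsScalarTower A₀ K₁ (ModelFieldGen K₁ F₀)]
    (hℓ : ¬ IsUnit ((ℓ : ℕ) : A₀)) (hζM : ∃ ζ : K₁, IsPrimitiveRoot ζ M)
    (ϖ : A₀) (hϖ : Irreducible ϖ)
    (x : ModelFieldGen K₁ F₀) (hx : (x : LaurentSeries K₁) = coeffEmb K₁ x₀) :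
    Function.Injective (algebraMap A₀ (ModelFieldGen K₁ F₀)) ∧ Transcendental A₀ x ∧
      Fermat.Agent.H22.KL.GoodBasis A₀ (ModelFieldGen K₁ F₀) ϖ x ∧
      IrredFibre A₀ (ModelFieldGen K₁ F₀) ϖ x := by
  classical
  have hinjK : Function.Injective (algebraMap A₀ K₁) := IsFractionRing.injective A₀ K₁
  have hmapΩ : ∀ c : A₀, algebraMap A₀ (LaurentSeries K₁) c
      = algebraMap K₁ (LaurentSeries K₁) (algebraMap A₀ K₁ c) := by
    intro c
    simp [HahnSeries.algebraMap_apply', PowerSeries.algebraMap_apply]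
  haveI towK := IsScalarTower.of_algebraMap_eq (R := A₀) (S := K₁) (A := LaurentSeries K₁) hmapΩ
  haveI towE := IsScalarTower.of_algebraMap_eq (R := A₀) (S := ModelFieldGen K₁ F₀)
    (A := LaurentSeries K₁) (fun c => by
      rw [hmapΩ, IsScalarTower.algebraMap_apply A₀ K₁ (ModelFieldGen K₁ F₀)]
      rfl)
  haveI : CharZero K₁ := charZero_of_injective_algebraMap (algebraMap ℚ K₁).injective
  haveI : CharZero (ModelFieldGen K₁ F₀) :=
    charZero_of_injective_algebraMap (algebraMap K₁ (ModelFieldGen K₁ F₀)).injective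
  have hinjE : Function.Injective (algebraMap A₀ (ModelFieldGen K₁ F₀)) := by
    rw [IsScalarTower.algebraMap_eq A₀ K₁ (ModelFieldGen K₁ F₀)]
    exact (algebraMap K₁ (ModelFieldGen K₁ F₀)).injective.comp hinjK
  have htr : Transcendental A₀ x := hTr K₁ A₀ x hx
  have hgb : Fermat.Agent.H22.KL.GoodBasis A₀ (ModelFieldGen K₁ F₀) ϖ x :=
    hGB K₁ A₀ hℓ ϖ hϖ x hx
  obtain ⟨hbr, hbrinf⟩ := hBR K₁ A₀ hℓ hζM ϖ hϖ x hx
  have hconstΩ : ∀ z : LaurentSeries K₁, IsIntegral A₀ z →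
      z ∈ (algebraMap A₀ (LaurentSeries K₁)).range := by
    intro z hz
    have hz1 : IsAlgebraic K₁ z := (hz.tower_top (A := K₁)).isAlgebraic
    obtain ⟨c, rfl⟩ := modelConst K₁ z hz1
    have hc : IsIntegral A₀ c :=
      (isIntegral_algebraMap_iff (algebraMap K₁ (LaurentSeries K₁)).injective).mp hz
    obtain ⟨d, rfl⟩ := IsIntegrallyClosed.isIntegral_iff.mp hc
    exact ⟨d, hmapΩ d⟩
  have hconstE : ∀ z : ModelFieldGen K₁ F₀, z ∈ chartClosure A₀ (ModelFieldGen K₁ F₀) x →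
      z ∈ chartClosure A₀ (ModelFieldGen K₁ F₀) x⁻¹ →
      z ∈ (algebraMap A₀ (ModelFieldGen K₁ F₀)).range := by
    intro z hz hz'
    have hint : IsIntegral A₀ z :=
      Fermat.Agent.H95.KL.chartConstStatement A₀ (ModelFieldGen K₁ F₀) hinjE x htr z hz hz'
    have hintΩ : IsIntegral A₀ (algebraMap (ModelFieldGen K₁ F₀) (LaurentSeries K₁) z) :=
      hint.algebraMap
    obtain ⟨d, hd⟩ := hconstΩ _ hintΩ
    refine ⟨d, ?_⟩
    apply (algebraMap (ModelFieldGen K₁ F₀) (LaurentSeries K₁)).injective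
    rw [← hd, ← IsScalarTower.algebraMap_apply]
  exact ⟨hinjE, htr, hgb,
    irreducibleFibre_of_normalityAt hNA A₀ (ModelFieldGen K₁ F₀) hinjE ϖ hϖ x htr hgb hbr
      hbrinf hconstE⟩

/-- **ES1-KL-QEXP (generic)**: the `q`-expansion principle from the parts. -/
theorem modelQExpRootGen_of_parts (hNA : NormalityAtStatement) (hQ : QExpAbsStatement)
    (F₀ : IntermediateField ℚ (LaurentSeries ℚ)) (ℓ : ℕ) (x₀ : LaurentSeries ℚ) (M : ℕ)
    (hTr : ModelTranscendentalGen F₀ x₀) (hGB : ModelGoodBasisGen F₀ ℓ x₀)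
    (hBR : ModelBranchGen F₀ ℓ x₀ M) (hV : GaussValGenStatement F₀ x₀) :
    ModelQExpRootGen F₀ ℓ x₀ M := by
  intro K₁ _ _ _ A₀ _ _ _ _ _ _ _ hℓ hζ ϖ hϖ x hx a b ha hb hbu
  haveI : CharZero K₁ := charZero_of_injective_algebraMap (algebraMap ℚ K₁).injective
  haveI : CharZero (ModelFieldGen K₁ F₀) :=
    charZero_of_injective_algebraMap (algebraMap K₁ (ModelFieldGen K₁ F₀)).injective
  obtain ⟨hinjE, htr, hgb, hirr⟩ :=
    modelIrredFibre_of_parts hNA F₀ ℓ x₀ M hTr hGB hBR K₁ A₀ hℓ hζ ϖ hϖ x hx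
  obtain ⟨V, hVA, hVx, hVϖ, hVh, hVab⟩ := hV K₁ A₀ ϖ hϖ x hx
  exact hQ A₀ (ModelFieldGen K₁ F₀) hinjE ϖ hϖ x htr hgb hirr V hVA hVx hVϖ hVh (a / b)
    (hVab a b ha hb hbu)

end Fermat.Agent.H91.ES1KL
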